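/-
Programme T1B (S44), cell R2/BRANDT, NODE PLACES over `κ̄` (helper90): the generation hypothesis
`htop` of helper77's `Unif77.ord_eq_one_of_constExt`, abstract part.

Setting (as `Brandt36/AuxNode`): a field `F`, two valuation subrings `O₁ O₂` with common uniformiser
`π`, a chart `B ⊆ O₁ ∩ O₂`, `π`-saturated in `O₁ ∩ O₂`, with `Frac B = F`, and a test element
`c₀ ∈ B` which is a unit of `O₁` and lies in `π O₂` (an element of the second vertical prime outside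
the first one, e.g. helper79's `h0`).

* `exists_frac_unit_den` : every `z ∈ O₁` is a fraction `b / b'` with `b, b' ∈ B`, `b'` a UNIT of `O₁`
  (`B_{P₁} = O₁`);
* `adjoin_range_resB_eq_top` : hence if the residue field of `O₁` generates `k` over `κ`, so does the
  image of the chart: `κ(res₁ B) = k`  (`htop` for the chart; a fortiori for its local rings).
-/
import Mathlib
import Fermat.Agent.T1B.Brandt36.AuxNode
import Fermat.Agent.T1B.NodeNF37.UnifOrd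

set_option autoImplicit false
set_option linter.unusedSectionVars false

noncomputable section

namespace Fermat.Agent.T1B.Brandt90

open Fermat.Agent.T1B.NodeNF37.UnifOrd

section Frac

variable {F : Type*} [Field F] (O₁ O₂ : ValuationSubring F) (B : Subring F)

/-- **`B_{P₁} = O₁`**: every element of `O₁` is a fraction of elements of the chart whose denominator
is a unit of `O₁`. -/
theorem exists_frac_unit_den (hB₁ : ∀ b ∈ B, b ∈ O₁) (hB₂ : ∀ b ∈ B, b ∈ O₂) {π : F}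
    (h₁ : IsUnifFor O₁ π) (hπ₂ : π ∈ O₂)
    (sat : ∀ c : F, c ∈ O₁ → c ∈ O₂ → π * c ∈ B → c ∈ B)
    (hfrac : ∀ z : F, ∃ b ∈ B, ∃ b' ∈ B, b' ≠ 0 ∧ z * b' = b)
    {c₀ : F} (hc₀ : c₀ ∈ B) (hc₀0 : c₀ ≠ 0) (hc₀₁ : c₀⁻¹ ∈ O₁) (hc₀₂ : c₀ * π⁻¹ ∈ O₂)
    {z : F} (hz : z ∈ O₁) : ∃ b ∈ B, ∃ b' ∈ B, b' ≠ 0 ∧ b'⁻¹ ∈ O₁ ∧ z * b' = b := by
  obtain ⟨b, hb, b', hb', hb'0, hzb⟩ := hfrac z
  obtain ⟨m, u, hu, hu', hb'u⟩ := h₁.exists_repr (hB₁ b' hb') hb'0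
  have hπ0 : π ≠ 0 := h₁.ne
  have hπm0 : π ^ m ≠ 0 := pow_ne_zero m hπ0
  have hu0 : u ≠ 0 := by
    rintro rfl
    exact hb'0 (by rw [hb'u, mul_zero])
  -- `d = (c₀ / π) ^ m ∈ O₂`
  set d : F := (c₀ * π⁻¹) ^ m with hd
  have hd₂ : d ∈ O₂ := O₂.pow_mem hc₀₂ m
  have hπd : π ^ m * d = c₀ ^ m := by
    rw [hd, mul_pow, inv_pow, mul_comm (c₀ ^ m), ← mul_assoc, mul_inv_cancel₀ hπm0, one_mul]
  have hc₀O₁ : c₀ ∈ O₁ := hB₁ c₀ hc₀
  -- the new denominator `b'' = b' d = u c₀ ^ m`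
  have hb''eq : b' * d = u * c₀ ^ m := by
    rw [hb'u, mul_comm (π ^ m) u, mul_assoc, hπd]
  have hb''₁ : b' * d ∈ O₁ := by
    rw [hb''eq]; exact O₁.mul_mem _ _ hu (O₁.pow_mem hc₀O₁ m)
  have hb''₂ : b' * d ∈ O₂ := O₂.mul_mem _ _ (hB₂ b' hb') hd₂
  have hb''B : b' * d ∈ B := by
    refine Fermat.Agent.T1B.Brandt36.mem_of_pow_mul_mem O₁ O₂ B h₁.mem hπ₂ sat m _ hb''₁ hb''₂ ?_
    have : π ^ m * (b' * d) = b' * c₀ ^ m := by
      rw [mul_left_comm, hπd]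
    rw [this]
    exact B.mul_mem hb' (B.pow_mem hc₀ m)
  have hb''0 : b' * d ≠ 0 := by
    rw [hb''eq]; exact mul_ne_zero hu0 (pow_ne_zero m hc₀0)
  have hb''inv : (b' * d)⁻¹ ∈ O₁ := by
    rw [hb''eq, mul_inv, ← inv_pow]
    exact O₁.mul_mem _ _ hu' (O₁.pow_mem hc₀₁ m)
  -- the new numerator `b d = z b''`
  have hnum : z * (b' * d) = b * d := by rw [← mul_assoc, hzb]
  have hbd₁ : b * d ∈ O₁ := by rw [← hnum]; exact O₁.mul_mem _ _ hz hb''₁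
  have hbd₂ : b * d ∈ O₂ := O₂.mul_mem _ _ (hB₂ b hb) hd₂
  have hbdB : b * d ∈ B := by
    refine Fermat.Agent.T1B.Brandt36.mem_of_pow_mul_mem O₁ O₂ B h₁.mem hπ₂ sat m _ hbd₁ hbd₂ ?_
    have : π ^ m * (b * d) = b * c₀ ^ m := by
      rw [mul_left_comm, hπd]
    rw [this]
    exact B.mul_mem hb (B.pow_mem hc₀ m)
  exact ⟨b * d, hbdB, b' * d, hb''B, hb''0, hb''inv, hnum⟩

end Frac

section Top

open IntermediateField

variable {F : Type*} [Field F] (O₁ O₂ : ValuationSubring F) (B : Subring F)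
variable {κ k : Type*} [Field κ] [Field k] [Algebra κ k] (res₁ : ↥O₁ →+* k)

/-- **`htop` for the chart**: if the residue field of `O₁` generates `k` over `κ`, so does the image
of the chart `B` (`ρ : B' →+* k` any map whose range contains `res₁ B`, e.g. `res₁ ∘ (B → O₁)` itself
or the residue map of a local ring of `B`). -/
theorem adjoin_range_eq_top_of_chart (hB₁ : ∀ b ∈ B, b ∈ O₁) (hB₂ : ∀ b ∈ B, b ∈ O₂) {π : F}
    (h₁ : IsUnifFor O₁ π) (hπ₂ : π ∈ O₂)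
    (sat : ∀ c : F, c ∈ O₁ → c ∈ O₂ → π * c ∈ B → c ∈ B)
    (hfrac : ∀ z : F, ∃ b ∈ B, ∃ b' ∈ B, b' ≠ 0 ∧ z * b' = b)
    {c₀ : F} (hc₀ : c₀ ∈ B) (hc₀0 : c₀ ≠ 0) (hc₀₁ : c₀⁻¹ ∈ O₁) (hc₀₂ : c₀ * π⁻¹ ∈ O₂)
    (htop₁ : adjoin κ (Set.range res₁) = ⊤)
    {B' : Type*} [CommRing B'] (ρ : B' →+* k)
    (hρ : ∀ (b : F) (hb : b ∈ B), ∃ a : B', ρ a = res₁ ⟨b, hB₁ b hb⟩) :
    adjoin κ (Set.range ρ) = ⊤ := by
  rw [eq_top_iff, ← htop₁, adjoin_le_iff]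
  rintro _ ⟨z, rfl⟩
  obtain ⟨b, hb, b', hb', hb'0, hb'inv, hzb⟩ :=
    exists_frac_unit_den O₁ O₂ B hB₁ hB₂ h₁ hπ₂ sat hfrac hc₀ hc₀0 hc₀₁ hc₀₂ z.2
  obtain ⟨a, ha⟩ := hρ b hb
  obtain ⟨a', ha'⟩ := hρ b' hb'
  have hmul : res₁ z * res₁ ⟨b', hB₁ b' hb'⟩ = res₁ ⟨b, hB₁ b hb⟩ := by
    rw [← map_mul]
    congr 1
    exact Subtype.ext hzb
  have hunit : res₁ ⟨b', hB₁ b' hb'⟩ ≠ 0 := by
    have h1 : (⟨b', hB₁ b' hb'⟩ : ↥O₁) * ⟨b'⁻¹, hb'inv⟩ = 1 :=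
      Subtype.ext (mul_inv_cancel₀ hb'0)
    intro h0
    have := congrArg res₁ h1
    rw [map_mul, h0, zero_mul, map_one] at this
    exact zero_ne_one this
  have hz : res₁ z = ρ a * (ρ a')⁻¹ := by
    rw [ha, ha', ← hmul, mul_assoc, mul_inv_cancel₀ hunit, mul_one]
  rw [SetLike.mem_coe, hz]
  exact mul_mem (subset_adjoin κ _ ⟨a, rfl⟩) (inv_mem (subset_adjoin κ _ ⟨a', rfl⟩))

end Top

end Fermat.Agent.T1B.Brandt90
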