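/-
Programme T1B (S44), cells R1/R2 (NODE PLACES over `κ̄`), helper90: the ABSTRACT `hall` supplier —
**every maximal ideal of a chart through which the residue map does not vanish identically is the
centre of a `κ`-place of the component's function field** (Chevalley + "valuation rings of a
function field in one variable are discrete").

`k / κ` a function field in one variable with a separating generator `x` (`X0.FF.IsGen κ x`,
`k / κ(x)` separable), `κ` integral over the prime ring (`κ ⊆ F̄_p`), `ρ : B →+* k` a ring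
homomorphism (the residue map of a chart along a component) and `𝔫` a maximal ideal of `B` with
`ker ρ ≤ 𝔫`, `ρ(𝔫) ≠ 0`.  Then there is a place `v` of `k / κ` with `ρ(B) ⊆ O_v` and centre `𝔫`:
`b ∈ 𝔫 ↔ ρ b = 0 ∨ 0 < ord_v (ρ b)`.
-/
import Mathlib
import Fermat.Agent.ES.RED.PlacePIR13

set_option autoImplicit false
set_option linter.unusedSectionVars false

noncomputable section

namespace Fermat.Agent.T1B.Brandt90

open AlgebraicCurve IsLocalRing IntermediateField
open Fermat.Agent.X0.FF

variable {κ k : Type*} [Field κ] [Field k] [Algebra κ k]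

/-- Chevalley, in the form we use: a valuation subring of `k` containing `ρ(B)` whose maximal ideal
contracts to the maximal ideal `𝔫 ⊇ ker ρ`. -/
theorem exists_valuationSubring_centre {B : Type*} [CommRing B] (ρ : B →+* k) (𝔫 : Ideal B)
    [h𝔫 : 𝔫.IsMaximal] (hker : RingHom.ker ρ ≤ 𝔫) :
    ∃ V : ValuationSubring k, (∀ b, ρ b ∈ V) ∧
      ∀ b, b ∈ 𝔫 ↔ ρ b = 0 ∨ (ρ b)⁻¹ ∉ V := by
  classical
  set R : Subring k := ρ.range with hR
  set f : B →+* R := ρ.rangeRestrict with hf
  have hfsurj : Function.Surjective f := ρ.rangeRestrict_surjective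
  have hkerf : RingHom.ker f = RingHom.ker ρ := by
    ext b
    rw [RingHom.mem_ker, RingHom.mem_ker]
    constructor
    · intro h
      exact congrArg (Subtype.val) h
    · intro h
      exact Subtype.ext h
  set P : Ideal R := 𝔫.map f with hP
  have hcomap : P.comap f = 𝔫 := by
    rw [hP, Ideal.comap_map_of_surjective f hfsurj]
    have : Ideal.comap f ⊥ = RingHom.ker f := rfl
    rw [this, hkerf]
    exact sup_eq_left.mpr hker
  have hPmax : P.IsMaximal := by
    rcases Ideal.map_eq_top_or_isMaximal_of_surjective f hfsurj h𝔫 with h | h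
    · exfalso
      have h1 : P.comap f = ⊤ := by rw [hP, h]; rfl
      rw [hcomap] at h1
      exact h𝔫.ne_top h1
    · exact h
  have : P.IsPrime := hPmax.isPrime
  obtain ⟨V, hV⟩ := (LocalSubring.ofPrime R P).exists_le_valuationSubring
  obtain ⟨hle, hloc⟩ := LocalSubring.le_def.mp hV
  have hRV : ∀ b, ρ b ∈ V := fun b =>
    hle (LocalSubring.le_ofPrime R P ⟨b, rfl⟩)
  refine ⟨V, hRV, fun b => ?_⟩
  -- the element `ρ b` of the local ring `R_P`
  set a : (LocalSubring.ofPrime R P).toSubring := algebraMap R _ (f b) with ha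
  have haval : ((a : (LocalSubring.ofPrime R P).toSubring) : k) = ρ b := rfl
  have hmem_iff : b ∈ 𝔫 ↔ f b ∈ P := by
    rw [← hcomap, Ideal.mem_comap]
  have hunit_iff : IsUnit a ↔ f b ∉ P := by
    constructor
    · intro hu hmem
      have : a ∈ maximalIdeal (LocalSubring.ofPrime R P).toSubring :=
        (IsLocalization.AtPrime.to_map_mem_maximal_iff
          (LocalSubring.ofPrime R P).toSubring P (f b)).mpr hmem
      exact (mem_maximalIdeal _).mp this hu
    · intro hmem
      exact IsLocalization.map_units (LocalSubring.ofPrime R P).toSubring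
        (⟨f b, hmem⟩ : P.primeCompl)
  have hunitV : IsUnit a ↔ IsUnit (Subring.inclusion hle a) := by
    constructor
    · intro h; exact h.map _
    · intro h; exact hloc.map_nonunit a h
  have hV_unit : IsUnit (Subring.inclusion hle a) ↔ ρ b ≠ 0 ∧ (ρ b)⁻¹ ∈ V := by
    constructor
    · intro hu
      obtain ⟨w, hw⟩ := isUnit_iff_exists_inv.mp hu
      have h1 : ρ b * (w : k) = 1 := congrArg Subtype.val hw
      have h0 : ρ b ≠ 0 := left_ne_zero_of_mul_eq_one h1
      refine ⟨h0, ?_⟩
      have : (ρ b)⁻¹ = (w : k) := (eq_inv_of_mul_eq_one_right h1).symm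
      rw [this]
      exact w.2
    · rintro ⟨h0, hinv⟩
      refine isUnit_iff_exists_inv.mpr ⟨⟨(ρ b)⁻¹, hinv⟩, ?_⟩
      apply Subtype.ext
      show ρ b * (ρ b)⁻¹ = 1
      exact mul_inv_cancel₀ h0
  rw [hmem_iff]
  constructor
  · intro hmem
    by_contra hcon
    rw [not_or, not_not] at hcon
    have : IsUnit a := hunitV.mpr (hV_unit.mpr hcon)
    exact (hunit_iff.mp this) hmem
  · intro h
    by_contra hmem
    have hu : IsUnit a := hunit_iff.mpr hmem
    obtain ⟨h0, hinv⟩ := hV_unit.mp (hunitV.mp hu)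
    rcases h with h | h
    · exact h0 h
    · exact h hinv

/-- **Abstract `hall`**: every maximal ideal `𝔫 ⊇ ker ρ` of the chart with `ρ(𝔫) ≠ 0` is the centre
of a place of the function field `k / κ`. -/
theorem exists_place_centre {x : k} (hx : IsGen κ x) [Algebra.IsSeparable κ⟮x⟯ k]
    (hκ : ∀ c : κ, IsIntegral ℤ (algebraMap κ k c))
    {B : Type*} [CommRing B] (ρ : B →+* k) (𝔫 : Ideal B) [h𝔫 : 𝔫.IsMaximal]
    (hker : RingHom.ker ρ ≤ 𝔫) (hne : ∃ b ∈ 𝔫, ρ b ≠ 0) :
    ∃ v : Place κ k, (∀ b, ρ b ∈ v.toValuationSubring) ∧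
      ∀ b, b ∈ 𝔫 ↔ ρ b = 0 ∨ 0 < v.ord (ρ b) := by
  obtain ⟨V, hBV, hcen⟩ := exists_valuationSubring_centre ρ 𝔫 hker
  -- constants
  have hK : ∀ c : κ, algebraMap κ k c ∈ V := by
    intro c
    obtain ⟨q, hq, hqc⟩ := hκ c
    exact Fermat.Agent.RED.DESC.PlaceExtend27.mem_of_monic_root V (Int.castRingHom k)
      (fun r => by
        have : (Int.castRingHom k r) = ((r : ℤ) : k) := rfl
        rw [this]
        exact intCast_mem V r) ⟨q, hq, by
          have : (algebraMap ℤ k) = Int.castRingHom k := RingHom.ext fun r => by simp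
          rw [← this]; exact hqc⟩
  -- `V ≠ ⊤`
  have hV : V ≠ ⊤ := by
    obtain ⟨b, hb, hb0⟩ := hne
    intro htop
    rcases (hcen b).mp hb with h | h
    · exact hb0 h
    · exact h (htop ▸ ValuationSubring.mem_top _)
  let v : Place κ k :=
    { toValuationSubring := V
      algebraMap_mem' := hK
      ne_top' := hV
      isPrincipalIdealRing' :=
        Fermat.Agent.ES.RED.PlacePIR13.isPrincipalIdealRing_of_algebraMap_mem hx V hK hV }
  refine ⟨v, hBV, fun b => ?_⟩
  rw [hcen b]
  by_cases h0 : ρ b = 0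
  · simp [h0]
  · rw [or_iff_right h0, or_iff_right h0]
    have hnn : 0 ≤ v.ord (ρ b) := ord_nonneg_of_mem v (hBV b)
    constructor
    · intro hinv
      by_contra hle
      apply hinv
      have h1 : 0 ≤ v.ord (ρ b)⁻¹ := by
        rw [v.ord_inv]; omega
      exact mem_of_ord_nonneg v h1
    · intro hpos hinv
      have h1 : 0 ≤ v.ord (ρ b)⁻¹ := ord_nonneg_of_mem v hinv
      rw [v.ord_inv] at h1
      omega

end Fermat.Agent.T1B.Brandt90
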