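/-
Programme T1B (S44), cells R1/R2 (NODE PLACES over `κ̄`), helper90: `HallPlace.exists_place_centre`
for the component function field `k₁ = FullC κ̄ N` (`κ̄` algebraically closed of characteristic
`p ∤ N`, algebraic over `𝔽_p`): `x := j̃` is a separating generator (helper87's `CharPX0.isGen_jC`,
`HPDCharP.isSeparable_of_order`).

`exists_place_centre_fullC` : for `ρ : B →+* FullC κ̄ N` and a maximal ideal `𝔫 ⊇ ker ρ` of `B` with
`ρ(𝔫) ≠ 0` there is a place `v` of `FullC κ̄ N / κ̄` with `ρ(B) ⊆ O_v` and centre `𝔫`.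
-/
import Mathlib
import Fermat.Agent.T1B.Brandt90.HallPlace
import Fermat.Agent.T1B.Hecke87.CharPX0
import Fermat.Agent.T1B.Hecke87.HPDCharP

set_option autoImplicit false
set_option linter.unusedSectionVars false

noncomputable section

namespace Fermat.Agent.T1B.Brandt90

open AlgebraicCurve ModularCurve IntermediateField
open Fermat.Agent.X0.FF Fermat.Agent.T1B.Hecke87

/-- constants algebraic over `𝔽_p` are integral over `ℤ`. -/
theorem isIntegral_int_algebraMap_of_zmod {k F : Type*} [Field k] [Field F] [Algebra k F]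
    (p : ℕ) [Fact p.Prime] [Algebra (ZMod p) k] [Algebra.IsAlgebraic (ZMod p) k] (c : k) :
    IsIntegral ℤ (algebraMap k F c) := by
  have h1 : IsIntegral (ZMod p) c := (Algebra.IsAlgebraic.isAlgebraic c).isIntegral
  have : Algebra.IsIntegral ℤ (ZMod p) :=
    Algebra.isIntegral_of_surjective (by
      intro z
      obtain ⟨n, rfl⟩ := ZMod.intCast_surjective z
      exact ⟨n, by simp⟩)
  have h3 : IsIntegral ℤ c := isIntegral_trans c h1
  exact h3.algebraMap

/-- **`hall` for the component `FullC κ̄ N`**. -/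
theorem exists_place_centre_fullC (k : Type) [Field k] [IsAlgClosed k] (p : ℕ) [Fact p.Prime]
    [CharP k p] [Algebra (ZMod p) k] [Algebra.IsAlgebraic (ZMod p) k]
    (N : ℕ) [NeZero N] (hpN : ¬ p ∣ N)
    {B : Type*} [CommRing B] (ρ : B →+* ↥(modularFunctionFieldFullC k N)) (𝔫 : Ideal B)
    [h𝔫 : 𝔫.IsMaximal] (hker : RingHom.ker ρ ≤ 𝔫) (hne : ∃ b ∈ 𝔫, ρ b ≠ 0) :
    ∃ v : Place k ↥(modularFunctionFieldFullC k N), (∀ b, ρ b ∈ v.toValuationSubring) ∧
      ∀ b, b ∈ 𝔫 ↔ ρ b = 0 ∨ 0 < v.ord (ρ b) := by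
  have hgen : IsGen k (CharPX0.jC k N) := CharPX0.isGen_jC k p N hpN
  have hcop : IsCoprime ((CharPX0.jC k N : ↥(modularFunctionFieldFullC k N)) :
      LaurentSeries k).order (p : ℤ) := by
    rw [CharPX0.coe_jC, Fermat.Agent.IG.AN.ModPoly3.order_jqModC k]
    exact (isCoprime_one_left (x := (p : ℤ))).neg_left
  have := HPDCharP.isSeparable_of_order p (modularFunctionFieldFullC k N) hgen hcop
  exact exists_place_centre hgen (isIntegral_int_algebraMap_of_zmod p) ρ 𝔫 hker hne

end Fermat.Agent.T1B.Brandt90
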