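/-
Programme T1B (S44), cells R1/R2 (NODE PLACES), helper90: **THE NODAL MODEL HAS A NODE ON CHART 0**
(the index set of the node places is nonempty; gap flagged by helper96), ABSTRACT part.

In the vocabulary of `ES/N34/NodalCore13` (`Subalgebra` charts `B0 B1`, `OffBranch`) and of helper30's
`NodalCoh30.Meet`:

* `exists_node_of_meet`  : `Meet π B O1 O2` (the two vertical ideals of the chart `B` are not
  comaximal) ⇒ a maximal ideal of `B` through which both branches pass (converse of `meet_of_node`);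
* `meet0_of_meet`        : if the nodes of chart `1` lie in `U_01` (`t⁻¹ ∉ x1`), then `Meet` on chart `1`
  implies `Meet` on chart `0`.
(`NodeExistsNum.lean`: `NodalNumData`; `NodeExistsConcrete.lean`: the concrete model `ModelDefs9`.)
-/
import Mathlib
import Fermat.Agent.T1B.NodalCoh30.Nodal

set_option autoImplicit false
set_option linter.unusedSectionVars false

noncomputable section

namespace Fermat.Agent.T1B.Brandt90

open Fermat.Agent.ES.N34.NodalCore13 Fermat.Agent.T1B.NodalCoh30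

section Abstract

variable {R F : Type*} [CommRing R] [Field F] [Algebra R F]
variable {π : R} {t : F} {B B0 B1 : Subalgebra R F} {O O1 O2 : ValuationSubring F}

/-- The vertical ideal `B ∩ π O` of the chart `B ⊆ O`. -/
def vertIdeal (π : R) (B : Subalgebra R F) (O : ValuationSubring F) (hle : ∀ x ∈ B, x ∈ O) :
    Ideal ↥B where
  carrier := {b | ∃ c ∈ O, (b : F) = algebraMap R F π * c}
  zero_mem' := ⟨0, O.zero_mem, by simp⟩
  add_mem' := by
    rintro a b ⟨c, hc, hac⟩ ⟨d, hd, hbd⟩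
    exact ⟨c + d, O.add_mem _ _ hc hd, by rw [Subalgebra.coe_add, hac, hbd, mul_add]⟩
  smul_mem' := by
    rintro a b ⟨c, hc, hbc⟩
    refine ⟨(a : F) * c, O.mul_mem _ _ (hle _ a.2) hc, ?_⟩
    rw [smul_eq_mul, Subalgebra.coe_mul, hbc]
    ring

theorem mem_vertIdeal {hle : ∀ x ∈ B, x ∈ O} {b : ↥B} :
    b ∈ vertIdeal π B O hle ↔ ∃ c ∈ O, (b : F) = algebraMap R F π * c := Iff.rfl

/-- a branch passes through every ideal containing its vertical ideal. -/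
theorem not_offBranch_of_vertIdeal_le {hle : ∀ x ∈ B, x ∈ O} {𝔫 : Ideal ↥B}
    (h : vertIdeal π B O hle ≤ 𝔫) : ¬ OffBranch π B O 𝔫 := by
  rintro ⟨e, he, c, hc, hec⟩
  exact he (h ⟨c, hc, hec⟩)

/-- **Converse of `meet_of_node`**: if the two vertical ideals of the chart are not comaximal, some
maximal ideal of the chart lies on both branches. -/
theorem exists_node_of_meet (hle1 : ∀ x ∈ B, x ∈ O1) (hle2 : ∀ x ∈ B, x ∈ O2)
    (h : Meet π B O1 O2) :
    ∃ 𝔫 : Ideal ↥B, 𝔫.IsMaximal ∧ ¬ OffBranch π B O1 𝔫 ∧ ¬ OffBranch π B O2 𝔫 := by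
  have hne : vertIdeal π B O1 hle1 ⊔ vertIdeal π B O2 hle2 ≠ ⊤ := by
    intro htop
    have h1 : (1 : ↥B) ∈ vertIdeal π B O1 hle1 ⊔ vertIdeal π B O2 hle2 := by
      rw [htop]; exact Submodule.mem_top
    obtain ⟨x, hx, y, hy, hxy⟩ := Submodule.mem_sup.1 h1
    refine h (x : F) x.2 (y : F) y.2 hx hy ?_
    rw [← Subalgebra.coe_add, hxy]
    rfl
  obtain ⟨𝔫, h𝔫, hle⟩ := Ideal.exists_le_maximal _ hne
  exact ⟨𝔫, h𝔫, not_offBranch_of_vertIdeal_le (le_sup_left.trans hle),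
    not_offBranch_of_vertIdeal_le (le_sup_right.trans hle)⟩

/-- **A node of chart `1` in `U_01` is seen by chart `0`.** -/
theorem meet0_of_meet (N : NodalTwoChartModel R F π t B0 B1 O1 O2)
    (hU : ∀ x1 : Ideal ↥B1, x1.IsMaximal → ¬ OffBranch π B1 O1 x1 → ¬ OffBranch π B1 O2 x1 →
      (⟨t⁻¹, N.tinv_mem⟩ : ↥B1) ∉ x1)
    (h : Meet π B0 O1 O2 ∨ Meet π B1 O1 O2) : Meet π B0 O1 O2 := by
  rcases h with h | h
  · exact h
  obtain ⟨x1, hx1, hoff1, hoff2⟩ := exists_node_of_meet N.le_O1_1 N.le_O2_1 h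
  have hs := hU x1 hx1 hoff1 hoff2
  intro b1 hb1 b2 hb2 ⟨c1, hc1, hbc1⟩ ⟨c2, hc2, hbc2⟩ hsum
  obtain ⟨k1, hk1⟩ := N.ov1 b1 hb1
  obtain ⟨k2, hk2⟩ := N.ov1 b2 hb2
  set s : F := t⁻¹ with hsdef
  have hsB : s ∈ B1 := N.tinv_mem
  -- common exponent
  have hmul : ∀ {k k' : ℕ} {b : F}, k ≤ k' → s ^ k * b ∈ B1 → s ^ k' * b ∈ B1 := by
    intro k k' b hkk hb
    obtain ⟨j, rfl⟩ := Nat.exists_eq_add_of_le hkk
    rw [add_comm, pow_add, mul_assoc]
    exact B1.mul_mem (B1.pow_mem hsB j) hb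
  set k := max k1 k2 with hk
  have h1B : s ^ k * b1 ∈ B1 := hmul (le_max_left _ _) hk1
  have h2B : s ^ k * b2 ∈ B1 := hmul (le_max_right _ _) hk2
  have h1x : (⟨s ^ k * b1, h1B⟩ : ↥B1) ∈ x1 := by
    by_contra hn
    refine hoff1 ⟨_, hn, s ^ k * c1, O1.mul_mem _ _ (O1.pow_mem N.tinv_mem_O1 k) hc1, ?_⟩
    show s ^ k * b1 = _
    rw [hbc1]; ring
  have h2x : (⟨s ^ k * b2, h2B⟩ : ↥B1) ∈ x1 := by
    by_contra hn
    refine hoff2 ⟨_, hn, s ^ k * c2, O2.mul_mem _ _ (O2.pow_mem N.tinv_mem_O2 k) hc2, ?_⟩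
    show s ^ k * b2 = _
    rw [hbc2]; ring
  have hpow : (⟨s, hsB⟩ : ↥B1) ^ k ∈ x1 := by
    have : (⟨s, hsB⟩ : ↥B1) ^ k = ⟨s ^ k * b1, h1B⟩ + ⟨s ^ k * b2, h2B⟩ := by
      apply Subtype.ext
      show s ^ k = s ^ k * b1 + s ^ k * b2
      rw [← mul_add, hsum, mul_one]
    rw [this]
    exact x1.add_mem h1x h2x
  exact hs (hx1.isPrime.mem_of_pow_mem k hpow)

end Abstract

end Fermat.Agent.T1B.Brandt90
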