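/-
Programme T1B (S44), cells R1/R2 (NODE PLACES), helper90: **a `NodalNumData` whose chart-1 nodes lie
in `U_01` has a node on chart `0`** (`NodeExists.meet0_of_meet` + helper30's `meet_of_numData`).
-/
import Mathlib
import Fermat.Agent.T1B.Brandt90.NodeExists
import Fermat.Agent.T1B.NodalCoh30.NumData

set_option autoImplicit false
set_option linter.unusedSectionVars false

noncomputable section

namespace Fermat.Agent.T1B.Brandt90

open Fermat.Agent.ES.N34.NodalCore13 Fermat.Agent.ES.N34.NumData13 Fermat.Agent.T1B.NodalCoh30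

section NumData

universe u

variable {R K F : Type u} [CommRing R] [Field K] [Field F] [Algebra R K] [Algebra K F]
  [Algebra R F] [IsScalarTower R K F]
variable {π : R} {t : F} {B0 B1 : Subalgebra R F} {O1 O2 : ValuationSubring F}

/-- **A nodal model whose chart-1 nodes lie in `U_01` has a node on chart `0`.** -/
theorem exists_node_chart0_of_numData (D : NodalNumData R K F π t B0 B1 O1 O2)
    (hU : ∀ x1 : Ideal ↥B1, x1.IsMaximal → ¬ OffBranch π B1 O1 x1 → ¬ OffBranch π B1 O2 x1 →
      (⟨t⁻¹, D.model.tinv_mem⟩ : ↥B1) ∉ x1) :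
    ∃ 𝔫 : Ideal ↥B0, 𝔫.IsMaximal ∧ ¬ OffBranch π B0 O1 𝔫 ∧ ¬ OffBranch π B0 O2 𝔫 :=
  exists_node_of_meet D.model.le_O1_0 D.model.le_O2_0
    (meet0_of_meet D.model hU (meet_of_numData D))

end NumData

end Fermat.Agent.T1B.Brandt90
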