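/-
Programme T1B (S44), cells R1/R2 (NODE PLACES), helper90: **the concrete nodal model
`ES/N34/ModelDefs9` has a node on chart `0`**, over every number field `K ∋ ζ_{M'}` with a Frobenius
inverse (`NodeExistsNum.exists_node_chart0_of_numData` + `ModelQAt4.nodalNumData_four_at/_nine_at` +
helper30's `CuspOff30.nodes_in_U01_four/_nine`).
-/
import Mathlib
import Fermat.Agent.T1B.Brandt90.NodeExistsNum
import Fermat.Agent.T1B.CuspOff30.NodesU01

set_option autoImplicit false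
set_option synthInstance.maxHeartbeats 400000
set_option linter.unusedSectionVars false

noncomputable section

namespace Fermat.Agent.T1B.Brandt90

open Fermat.Agent.ES.N34.NodalCore13 Fermat.Agent.ES.N34.NumData13 Fermat.Agent.T1B.NodalCoh30

section Concrete

open HahnSeries ModularCurve IntermediateField
open Fermat.Agent.RED.Interface4 Fermat.Agent.RED.PUR.GaussGen8 Fermat.Agent.RED.BASE.EtaQuot12
  Fermat.Agent.ES.N34.ModelDefs9 Fermat.Agent.ES.N34.ModelN4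
  Fermat.Agent.ES.P36.ModelQAt4 Fermat.Agent.X0 Fermat.Agent.T1B.CuspOff30

variable {M' : ℕ} [NeZero M'] {q : ℕ} [NeZero q] {A : ValuationSubring Qbar}
  {K : IntermediateField ℚ Qbar}

/-- **The concrete nodal model has a node on chart `0`**: `q` odd, `4 ∣ M'`. -/
theorem exists_node_chart0_four (hq : q.Prime) (hq2 : q ≠ 2) (hqM : ¬ q ∣ M') (hM : 4 ∣ M')
    (hA : A.LiesOverPrime q) [FiniteDimensional ℚ K] (hζ : zetaK M' ∈ K)
    (hF : FrobInvAt A K q)
    (ht : tq (↥K) 4 8 ∈ FK M' K) (hE : FK (M' * q) K ≤ fracField (AK A K))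
    (π : ↥(AK A K)) (hπ : IsUnif (AK A K) π) :
    ∃ 𝔫 : Ideal ↥(B0 A q ht), 𝔫.IsMaximal ∧ ¬ OffBranch π (B0 A q ht) (O1 M' q hπ hE) 𝔫 ∧
      ¬ OffBranch π (B0 A q ht) (O2 M' q hπ hE) 𝔫 := by
  obtain ⟨_, _, hD⟩ := nodalNumData_four_at (K := K) hq hq2 hqM hM hA hζ hF
  exact exists_node_chart0_of_numData (hD π hπ)
    (nodes_in_U01_four hq hq2 hqM hM hA hζ hF ht hE π hπ).2

/-- **The concrete nodal model has a node on chart `0`**: `q = 2`, `9 ∣ M'`. -/
theorem exists_node_chart0_nine [NeZero 2] (hqM : ¬ 2 ∣ M') (hM : 9 ∣ M')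
    (hA : A.LiesOverPrime 2) [FiniteDimensional ℚ K] (hζ : zetaK M' ∈ K)
    (hF : FrobInvAt A K 2)
    (ht : tq (↥K) 9 3 ∈ FK M' K) (hE : FK (M' * 2) K ≤ fracField (AK A K))
    (π : ↥(AK A K)) (hπ : IsUnif (AK A K) π) :
    ∃ 𝔫 : Ideal ↥(B0 A 2 ht), 𝔫.IsMaximal ∧ ¬ OffBranch π (B0 A 2 ht) (O1 M' 2 hπ hE) 𝔫 ∧
      ¬ OffBranch π (B0 A 2 ht) (O2 M' 2 hπ hE) 𝔫 := by
  obtain ⟨_, _, hD⟩ := nodalNumData_nine_at (K := K) hqM hM hA hζ hF
  exact exists_node_chart0_of_numData (hD π hπ)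
    (nodes_in_U01_nine hqM hM hA hζ hF ht hE π hπ).2

end Concrete

end Fermat.Agent.T1B.Brandt90
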