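/-
Programme T1B (S44), cell R2/BRANDT, brick 692 NODE-PLACE (helper90), file 1.

**(LOC) in POLYNOMIAL form.**  `ModelIface4.SmoothOff` only records that the maximal ideal of a
non-cuspidal closed point `x` of the chart is locally generated by `π` and SOME `s ∈ x`; the
purity theorem (`VertSmooth22.smooth_of_hUNR`) gives more: `s = f(t)` with `f ∈ O[X]`.  We re-export
this stronger form, in helper8's generic Gauss setting, with the horizontal hypothesis in the wrapped
form `OffIface4.HUNROff` (discharged over every number field `K ∋ ζ_M` by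
`ModelUnr4.HorizOff.hunrOff_of_zeta`).
-/
import Mathlib
import Fermat.Agent.RED.PUR.OffIface4

set_option autoImplicit false
set_option linter.unusedSectionVars false
set_option linter.unusedVariables false
set_option linter.style.haveILetI false

noncomputable section

namespace Fermat.Agent.T1B.Brandt90

open Polynomial IntermediateField ModularCurve
open Fermat.Agent.RED.PUR.IntClosBase13
open Fermat.Agent.RED.PUR.GaussGen8 Fermat.Agent.RED.PUR.KtGauss8 Fermat.Agent.RED.PUR.G1Package8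
open Fermat.Agent.RED.ModelIface4 Fermat.Agent.RED.PUR.OffIface4

variable {K : Type*} [Field K] {O : ValuationSubring K} {E : IntermediateField K (LaurentSeries K)}

/-- **(LOC) in polynomial form**, at the maximal ideals `x ∋ π` of `B := integralClosure O[X] E`
(`X ↦ t`) containing no `X - c`, `c ∈ S`: `x B_x = (π, f(t))` with `f ∈ O[X]`. -/
theorem locPoly_of_hunrOff [CharZero K] [IsDiscreteValuationRing ↥O] {π : ↥O}
    (hπ : Irreducible π)
    (hE : E ≤ fracField O) (t : ↥E) (ht : (t : LaurentSeries K) ∈ gaussRing O)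
    (htr : Transcendental (Res O) (gaussRed O ⟨(t : LaurentSeries K), ht⟩))
    {n : ℕ} (hdeg : DegLe O E ⟨(t : LaurentSeries K), ht⟩ n)
    (hirr : Irr O E ⟨(t : LaurentSeries K), ht⟩ n)
    (ℓ : ℕ) [Fact ℓ.Prime] [CharP (Res O) ℓ] [PerfectField (Res O)]
    (hord : IsCoprime (gaussRed O ⟨(t : LaurentSeries K), ht⟩).order (ℓ : ℤ))
    (htrK : Transcendental K t) [FiniteDimensional ↥K⟮t⟯ ↥E] (S : Set ↥O)
    (hunr : HUNROff O E π t S) :
    letI : Algebra (↥O)[X] ↥E := polyAlgebra (A := ↥O) t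
    ∀ x : Ideal ↥(integralClosure (↥O)[X] ↥E), x.IsMaximal →
      algebraMap (↥O)[X] ↥(integralClosure (↥O)[X] ↥E) (C π) ∈ x →
      (∀ c ∈ S, algebraMap (↥O)[X] ↥(integralClosure (↥O)[X] ↥E) (X - C c) ∉ x) →
      ∃ f : (↥O)[X], algebraMap (↥O)[X] ↥(integralClosure (↥O)[X] ↥E) f ∈ x ∧
        ∀ y ∈ x, ∃ d, d ∉ x ∧ d * y ∈ Ideal.span
          {algebraMap (↥O)[X] ↥(integralClosure (↥O)[X] ↥E) (C π),
            algebraMap (↥O)[X] ↥(integralClosure (↥O)[X] ↥E) f} := by
  haveI : IsScalarTower ↥O K ↥E := Fermat.Agent.RED.NumInst4.isScalarTower_OE O E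
  letI : Algebra (↥O)[X] ↥E := polyAlgebra (A := ↥O) t
  haveI : IsScalarTower ↥O (↥O)[X] ↥E := polyAlgebra_isScalarTower (A := ↥O) t
  have hX : algebraMap (↥O)[X] ↥E X = t := polyAlgebra_algebraMap_X (A := ↥O) t
  intro x hxmax hπx hSx
  have haev : ∀ r : (↥O)[X], algebraMap ↥(integralClosure (↥O)[X] ↥E) ↥E
      (algebraMap (↥O)[X] ↥(integralClosure (↥O)[X] ↥E) r) = aeval t r := fun r =>
    algebraMap_eq_aeval hX r
  have h2 : ∀ b : ↥(integralClosure (↥O)[X] ↥E),
      IsIntegral ↥(Algebra.adjoin ↥O {t}) (algebraMap ↥(integralClosure (↥O)[X] ↥E) ↥E b) :=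
    fun b => (isIntegral_iff hX (b : ↥E)).mp b.2
  have h3 : ∀ y : ↥E, IsIntegral ↥(Algebra.adjoin ↥O {t}) y →
      ∃ b : ↥(integralClosure (↥O)[X] ↥E), algebraMap ↥(integralClosure (↥O)[X] ↥E) ↥E b = y :=
    fun y hy => ⟨⟨y, (isIntegral_iff hX y).mpr hy⟩, rfl⟩
  haveI hfin : Module.Finite (↥O)[X] ↥(integralClosure (↥O)[X] ↥E) :=
    finite_integralClosure hX htrK
  haveI hic : IsIntegrallyClosed ↥(integralClosure (↥O)[X] ↥E) :=
    isIntegrallyClosed_integralClosure hX htrK
  haveI hfr : IsFractionRing ↥(integralClosure (↥O)[X] ↥E) ↥E :=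
    isFractionRing_integralClosure hX htrK
  haveI hfa : FaithfulSMul (↥O)[X] ↥(integralClosure (↥O)[X] ↥E) :=
    faithfulSMul_integralClosure hX htrK
  haveI hpir : IsPrincipalIdealRing ((↥O)[X] ⧸ Ideal.span {(C π : (↥O)[X])}) :=
    isPrincipalIdealRing_quot hπ
  haveI := hxmax
  refine Fermat.Agent.RED.PUR.VertSmooth22.smooth_of_hUNR (B := ↥(integralClosure (↥O)[X] ↥E))
      O hπ E hE t ht htr haev h2 h3 hdeg hirr ℓ hord x hπx ?_
  intro O' hB hdvr h1 h3'
  refine (fun ⟨g0, hg1, hg2⟩ => ⟨g0, by rw [haev]; exact hg1, fun y hy hy' => by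
    rw [haev]; exact hg2 y hy hy'⟩)
    (hunr (x.comap (algebraMap (↥O)[X] ↥(integralClosure (↥O)[X] ↥E)))
      (fun c hc hmem => hSx c hc hmem) O' ?_ hdvr ?_ ?_)
  · intro s hs
    exact hB ⟨s, (isIntegral_iff hX s).mpr hs⟩
  · have := h1
    rwa [haev, aeval_C] at this
  · intro r hr
    have := h3' r hr
    rwa [haev] at this

end Fermat.Agent.T1B.Brandt90
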